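/-
S56 block (F), F-0 CASE I: THE CLASSIFICATION of `r|D` in the supersingular case, part 2 (after `SS/Top.lean`).  DEFINITIONS.

Input: `SS.exists_tame_level` (a level `a` with `Q(θ(a,γ)) = 0 ⟹ Q(r γ) = 0` for `γ ∈ I`), `SS.vol_of_char` (A10).
Output (`SS0/Main.lean`): `SS.Classif P r`, i.e. a conjugate `conjRep B r` with an `SS.SSData C F k (conjRep B r)`, `F = {x ∈ k | x^(p²) = x}`.

Plan.  (Tame)  `r|I` factors through `θ(a,·)`: `r(I)` is commutative and `r(φ s φ⁻¹) = r(s)^p`  (`TameR`).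
(Diag) linear algebra: in a suitable basis `r(s) = diag(x, x^p)`, `x^(p²) = x` on `I`, `r(φ)` antidiagonal  (`DiagR`).
(Line) `X1 = ε F e₁` is a stable subgroup of order `p²` of `E_c`; A10 gives the exact level `λ`; (T1) at the level `λ`: `Q(θ(λ,γ)) = 0 ⟹ Q(η γ) = 0`, `η γ = r(γ)₀₀`.
(Embed) an embedding `ι : F → FF` with `ι (η d0) = θ(λ,d0)`.
-/
import Fermat.Agent.S56.F.SS.Top
import Fermat.Agent.S56.F.SS.VolChar
import Fermat.Agent.S56.F.Ord.Om
import Fermat.Agent.S56.F.Ord.LFX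

set_option autoImplicit false

open Fermat.Agent.PT.Local Matrix
open Fermat.Agent.S53 (G M2)
open Fermat.Agent.S56.C (ad rm)

noncomputable section

namespace Fermat.Agent.S56.F.SS0

/-- `a` is a tame level of `r` (the conclusion of `SS.exists_tame_level`). -/
def TLevel (P : Plc) {k : Type} [Field k] (r : G →* GL (Fin 2) k) (a : Qb) : Prop :=
  a ≠ 0 ∧ ∀ γ ∈ P.ine, ∀ Q : Polynomial ℤ, InM P (Polynomial.aeval (γ a / a) Q) →
    Polynomial.aeval (rm r γ) Q = 0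

/-- `r|I` "factors through a tame character". -/
structure TameR (P : Plc) {k : Type} [Field k] (r : G →* GL (Fin 2) k) : Prop where
  comm : ∀ s ∈ P.ine, ∀ t ∈ P.ine, r s * r t = r t * r s
  frob : ∀ φ : GQ, IsFrob P P.ℓ φ → ∀ s ∈ P.ine, r (φ * s * φ⁻¹) = r s ^ P.ℓ

/-- `r` in diagonal form on inertia, antidiagonal at the Frobenius `φ`. -/
structure DiagR (P : Plc) {k : Type} [Field k] (φ : GQ) (r : G →* GL (Fin 2) k) : Prop where
  ine : ∀ s ∈ P.ine, ∃ x : k, x ^ (P.ℓ ^ 2) = x ∧ rm r s = !![x, 0; 0, x ^ P.ℓ]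
  phi : ∃ a b : k, rm r φ = !![0, a; b, 0]
  ns : ∃ s ∈ P.ine, rm r s 0 0 ^ P.ℓ ≠ rm r s 0 0

end Fermat.Agent.S56.F.SS0

end
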