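/-
S56 block (F), F-0 CASE I, (Tame): a tame level `a` of `r` forces `r|I` to factor through `θ(a,·)`.
-/
import Fermat.Agent.S56.F.SS0.Defs

set_option autoImplicit false

open Fermat.Agent.PT.Local Matrix
open Fermat.Agent.S53 (G M2)
open Fermat.Agent.S56.C (ad rm)

noncomputable section

namespace Fermat.Agent.S56.F.SS0

variable {P : Plc} {k : Type} [Field k] {r : G →* GL (Fin 2) k} {a : Qb}

/-- `θ(a,γ) = 1 ⟹ r γ = 1`  (`Q = X - 1`). -/
theorem TLevel.eq_one (h : TLevel P r a) {γ : GQ} (hγ : γ ∈ P.ine) (h1 : InM P (γ a / a - 1)) : r γ = 1 := by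
  have h2 := h.2 γ hγ (Polynomial.X - 1) (by simpa using h1)
  have h3 : rm r γ = 1 := by
    simpa [sub_eq_zero] using h2
  exact Units.ext h3

theorem inM_of_theta (ha : a ≠ 0) {γ : GQ} (hγ : γ ∈ P.dec) (h : LF.theta P a γ = 1) :
    InM P (γ a / a - 1) := by
  have hv := LF.v_map_div P ha hγ
  unfold LF.theta at h
  rw [← LF.rs_one P, LF.rs_eq_iff P hv.le (by rw [map_one])] at h
  exact h

theorem TLevel.tameR (h : TLevel P r a) : TameR P r where
  comm := by
    intro s hs t ht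
    have ha := h.1
    have hsi := P.ine.inv_mem hs
    have hti := P.ine.inv_mem ht
    have hinv : ∀ x ∈ P.ine, LF.theta P a x * LF.theta P a x⁻¹ = 1 := fun x hx => by
      rw [← LF.theta_mul_right P ha hx (P.ine.inv_mem hx), mul_inv_cancel, LF.theta_one_right P a ha]
    have hmem : s * t * s⁻¹ * t⁻¹ ∈ P.ine := P.ine.mul_mem (P.ine.mul_mem (P.ine.mul_mem hs ht) hsi) hti
    have h1 : LF.theta P a (s * t * s⁻¹ * t⁻¹) = 1 := by
      rw [LF.theta_mul_right P ha (P.ine.mul_mem (P.ine.mul_mem hs ht) hsi) hti,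
        LF.theta_mul_right P ha (P.ine.mul_mem hs ht) hsi, LF.theta_mul_right P ha hs ht]
      calc LF.theta P a s * LF.theta P a t * LF.theta P a s⁻¹ * LF.theta P a t⁻¹
          = (LF.theta P a s * LF.theta P a s⁻¹) * (LF.theta P a t * LF.theta P a t⁻¹) := by ring
        _ = 1 := by rw [hinv s hs, hinv t ht, one_mul]
    have h2 := h.eq_one hmem (inM_of_theta ha (ine_le_dec P hmem) h1)
    rw [map_mul, map_mul, map_mul, map_inv, map_inv] at h2
    calc r s * r t = (r s * r t * (r s)⁻¹ * (r t)⁻¹) * (r t * r s) := by group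
      _ = r t * r s := by rw [h2, one_mul]
  frob := by
    intro φ hφ s hs
    have h1 := h.eq_one (Ord.tame_comm_mem P hφ hs) (Ord.tame_comm P hφ hs h.1)
    rw [map_mul, map_inv, map_pow] at h1
    calc r (φ * s * φ⁻¹) = r s ^ P.ℓ * ((r s ^ P.ℓ)⁻¹ * r (φ * s * φ⁻¹)) := by group
      _ = r s ^ P.ℓ := by rw [h1, mul_one]

/-- invariance under conjugation. -/
theorem TameR.conj (h : TameR P r) (B : GL (Fin 2) k) : TameR P (SS.conjRep B r) where
  comm := by
    intro s hs t ht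
    rw [SS.conjRep_apply, SS.conjRep_apply]
    calc B⁻¹ * r s * B * (B⁻¹ * r t * B) = B⁻¹ * (r s * r t) * B := by group
      _ = B⁻¹ * (r t * r s) * B := by rw [h.comm s hs t ht]
      _ = _ := by group
  frob := by
    intro φ hφ s hs
    rw [SS.conjRep_apply, SS.conjRep_apply, h.frob φ hφ s hs]
    exact (conj_pow (a := B⁻¹) (b := r s) (i := P.ℓ) |> fun e => by simpa using e.symm)

/-- CASE R is invariant under conjugation (`v ↦ B v`). -/
theorem caseR_of_conj {B : GL (Fin 2) k} (h : CaseR P (SS.conjRep B r)) : CaseR P r := by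
  obtain ⟨v, hv, hst⟩ := h
  have hBi : ((B⁻¹ : GL (Fin 2) k) : M2 k) * (B : M2 k) = 1 := by
    rw [← Units.val_mul, inv_mul_cancel, Units.val_one]
  have hBB : (B : M2 k) * ((B⁻¹ : GL (Fin 2) k) : M2 k) = 1 := by
    rw [← Units.val_mul, mul_inv_cancel, Units.val_one]
  refine ⟨(B : M2 k) *ᵥ v, fun h0 => hv ?_, fun σ hσ => ?_⟩
  · have h1 := congrArg (fun w => ((B⁻¹ : GL (Fin 2) k) : M2 k) *ᵥ w) h0
    simp only [Matrix.mulVec_mulVec, Matrix.mulVec_zero] at h1
    rwa [hBi, Matrix.one_mulVec] at h1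
  · obtain ⟨x, hx⟩ := hst σ hσ
    refine ⟨x, ?_⟩
    have h1 : rm (SS.conjRep B r) σ = ((B⁻¹ : GL (Fin 2) k) : M2 k) * rm r σ * (B : M2 k) := by
      unfold rm
      rw [SS.conjRep_apply]
      rfl
    rw [h1] at hx
    have h2 := congrArg (fun w => (B : M2 k) *ᵥ w) hx
    simp only [Matrix.mulVec_mulVec, Matrix.mulVec_smul] at h2
    rw [← mul_assoc, ← mul_assoc, hBB, one_mul] at h2
    rw [Matrix.mulVec_mulVec]
    exact h2

end Fermat.Agent.S56.F.SS0

end
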