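/-
S56 block (F), F-0 CASE I, (Diag): linear algebra.  From `TameR` (commutativity of `r(I)`, `r(φ s φ⁻¹) = r(s)^p`), `Split` and `¬ CaseR` to the diagonal form `DiagR`.
-/
import Fermat.Agent.S56.F.SS0.Tame

set_option autoImplicit false

open Fermat.Agent.PT.Local Matrix
open Fermat.Agent.S53 (G M2)
open Fermat.Agent.S56.C (ad rm)

noncomputable section

namespace Fermat.Agent.S56.F.SS0

variable {k : Type} [Field k]

/-- **L1.**  A non scalar `M ∈ GL₂(k)` (char `p`) which is conjugate to `M^p` has distinct eigenvalues.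
PROOF.  If `α = α'`: `N = M - α` satisfies `N² = 0` (Cayley-Hamilton `Matrix.aeval_self_charpoly`), `M^p = (α + N)^p = α^p + N^p = α^p` (`add_pow_char_of_commute`,
`Matrix.charP`; `N^p = N² N^(p-2) = 0`), so `R M R⁻¹` is the scalar `α^p`, and so is `M`. -/
theorem ne_of_not_scalar {p : ℕ} [Fact p.Prime] [CharP k p] {M R : GL (Fin 2) k} (hconj : R * M * R⁻¹ = M ^ p)
    {α α' : k}
    (hchar : (M : M2 k).charpoly = (Polynomial.X - Polynomial.C α) * (Polynomial.X - Polynomial.C α'))
    (hns : ∀ x : k, (M : M2 k) ≠ x • (1 : M2 k)) : α ≠ α' := by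
  rintro rfl
  have hp : 2 ≤ p := (Fact.out : p.Prime).two_le
  have hCH : Polynomial.aeval (M : M2 k) (M : M2 k).charpoly = 0 :=
    Matrix.aeval_self_charpoly (M : M2 k)
  rw [hchar] at hCH
  simp only [map_mul, map_sub, Polynomial.aeval_X, Polynomial.aeval_C] at hCH
  have hNp : ((M : M2 k) - algebraMap k (M2 k) α) ^ p = 0 := by
    obtain ⟨m, rfl⟩ := Nat.exists_eq_add_of_le hp
    rw [pow_add, pow_two, hCH, zero_mul]
  have hM : (M : M2 k) = algebraMap k (M2 k) α + ((M : M2 k) - algebraMap k (M2 k) α) := by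
    abel
  have hcomm : Commute (algebraMap k (M2 k) α) ((M : M2 k) - algebraMap k (M2 k) α) :=
    Algebra.commutes α _
  have hMp : (M : M2 k) ^ p = algebraMap k (M2 k) (α ^ p) := by
    conv_lhs => rw [hM]
    rw [add_pow_char_of_commute p hcomm, hNp, add_zero, map_pow]
  have h1 : M = R⁻¹ * M ^ p * R := by
    rw [← hconj]
    group
  have h2 : (M : M2 k) = ((R⁻¹ : GL (Fin 2) k) : M2 k) * (M : M2 k) ^ p * (R : M2 k) :=
    congrArg (fun g : GL (Fin 2) k => (g : M2 k)) h1
  apply hns (α ^ p)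
  have h3 : ((R⁻¹ : GL (Fin 2) k) : M2 k) * (R : M2 k) = 1 := by
    rw [← Units.val_mul, inv_mul_cancel, Units.val_one]
  rw [h2, hMp, ← Algebra.commutes, mul_assoc, h3, mul_one, Algebra.algebraMap_eq_smul_one]

theorem Diag_trace_det {M : M2 k} {a b : k}
    (h : M.charpoly = (Polynomial.X - Polynomial.C a) * (Polynomial.X - Polynomial.C b)) :
    M.trace = a + b ∧ M.det = a * b := by
  rw [Matrix.charpoly_fin_two] at h
  have h1 := congrArg (fun q => Polynomial.coeff q 1) h
  have h0 := congrArg (fun q => Polynomial.coeff q 0) h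
  have e : (Polynomial.X - Polynomial.C a) * (Polynomial.X - Polynomial.C b)
      = Polynomial.X ^ 2 - Polynomial.C (a + b) * Polynomial.X + Polynomial.C (a * b) := by
    rw [map_add, map_mul]; ring
  rw [e] at h1 h0
  simp only [Polynomial.coeff_add, Polynomial.coeff_sub, Polynomial.coeff_X_pow, Polynomial.coeff_C_mul,
    Polynomial.coeff_X_one, Polynomial.coeff_C, Polynomial.coeff_X_zero] at h1 h0
  constructor
  · have h1' : -M.trace = -(a + b) := by simpa using h1
    exact neg_injective h1'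
  · simpa using h0

/-- an eigenvector for a root of the characteristic polynomial. -/
theorem Diag_exists_eigen {M : M2 k} {a b : k} (ht : M.trace = a + b) (hd : M.det = a * b) :
    ∃ v : Fin 2 → k, v ≠ 0 ∧ M *ᵥ v = a • v := by
  have h0 : (M - a • (1 : M2 k)).det = 0 := by
    rw [Matrix.trace_fin_two] at ht
    rw [Matrix.det_fin_two] at hd ⊢
    simp only [Matrix.sub_apply, Matrix.smul_apply, Matrix.one_apply_eq, smul_eq_mul, mul_one,
      Matrix.one_apply_ne (show (0 : Fin 2) ≠ 1 by decide), Matrix.one_apply_ne (show (1 : Fin 2) ≠ 0 by decide),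
      mul_zero, sub_zero]
    have hb : b = M 0 0 + M 1 1 - a := by rw [ht]; ring
    rw [hb] at hd
    linear_combination hd
  obtain ⟨v, hv, hv0⟩ := Matrix.exists_mulVec_eq_zero_iff.2 h0
  refine ⟨v, hv, ?_⟩
  rw [Matrix.sub_mulVec, Matrix.smul_mulVec, Matrix.one_mulVec, sub_eq_zero] at hv0
  exact hv0

/-- **Diagonalisation.** -/
theorem Diag_exists_basis {M : M2 k} {a b : k} (ht : M.trace = a + b) (hd : M.det = a * b) (hab : a ≠ b) :
    ∃ V : GL (Fin 2) k, M * (V : M2 k) = (V : M2 k) * !![a, 0; 0, b] := by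
  obtain ⟨v, hv, hMv⟩ := Diag_exists_eigen ht hd
  obtain ⟨w, hw, hMw⟩ := Diag_exists_eigen (a := b) (b := a) (by rw [ht, add_comm]) (by rw [hd, mul_comm])
  have e0 := congrFun hMv 0
  have e1 := congrFun hMv 1
  have f0 := congrFun hMw 0
  have f1 := congrFun hMw 1
  simp only [Matrix.mulVec, dotProduct, Fin.sum_univ_two, Pi.smul_apply, smul_eq_mul] at e0 e1 f0 f1
  have hab' : a - b ≠ 0 := sub_ne_zero.2 hab
  have hdet : (!![v 0, w 0; v 1, w 1] : M2 k).det ≠ 0 := by
    intro h
    obtain ⟨c, hc, hc0⟩ := Matrix.exists_mulVec_eq_zero_iff.2 h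
    have h0 := congrFun hc0 0
    have h1 := congrFun hc0 1
    simp only [Matrix.mulVec, dotProduct, Fin.sum_univ_two, Matrix.of_apply, Matrix.cons_val_zero,
      Matrix.cons_val_one, Matrix.cons_val', Matrix.cons_val_fin_one, Pi.zero_apply] at h0 h1
    have k0 : (a - b) * (c 0 * v 0) = 0 := by
      linear_combination (-(c 0)) * e0 - c 1 * f0 + M 0 0 * h0 + M 0 1 * h1 - b * h0
    have k1 : (a - b) * (c 0 * v 1) = 0 := by
      linear_combination (-(c 0)) * e1 - c 1 * f1 + M 1 0 * h0 + M 1 1 * h1 - b * h1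
    have k0' := (mul_eq_zero.1 k0).resolve_left hab'
    have k1' := (mul_eq_zero.1 k1).resolve_left hab'
    have hc00 : c 0 = 0 := by
      by_contra hne
      apply hv
      funext i
      fin_cases i
      · exact (mul_eq_zero.1 k0').resolve_left hne
      · exact (mul_eq_zero.1 k1').resolve_left hne
    rw [hc00] at h0 h1
    have hc10 : c 1 = 0 := by
      by_contra hne
      apply hw
      funext i
      fin_cases i
      · simpa [hne] using h0
      · simpa [hne] using h1
    apply hc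
    funext i
    fin_cases i
    · exact hc00
    · exact hc10
  refine ⟨Matrix.GeneralLinearGroup.mkOfDetNeZero _ hdet, ?_⟩
  show M * !![v 0, w 0; v 1, w 1] = !![v 0, w 0; v 1, w 1] * !![a, 0; 0, b]
  ext i j
  fin_cases i <;> fin_cases j <;>
    simp [Matrix.mul_apply, Fin.sum_univ_two] <;> first | linear_combination e0 | linear_combination e1 | linear_combination f0 | linear_combination f1

/-- **L2.**  Diagonalisation.
PROOF.  `det (α - M) = charpoly.eval α = 0` (`Matrix.eval_charpoly`/`Matrix.charpoly`, `Matrix.exists_mulVec_eq_zero_iff`) gives `v ≠ 0`, `M v = α v`; the same for `α'`, `v'`.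
`B = !![v 0, v' 0; v 1, v' 1]`, `M B = B diag(α,α')`.  `det B ≠ 0`: otherwise `v 0 * v' 1 = v' 0 * v 1`, `v' = t v` (or `v = t v'`), `α = α'`. -/
theorem exists_diag {M : M2 k} {α α' : k}
    (hchar : M.charpoly = (Polynomial.X - Polynomial.C α) * (Polynomial.X - Polynomial.C α')) (hne : α ≠ α') :
    ∃ B : GL (Fin 2) k, ((B⁻¹ : GL (Fin 2) k) : M2 k) * M * (B : M2 k) = !![α, 0; 0, α'] := by
  obtain ⟨ht, hd⟩ := Diag_trace_det hchar
  obtain ⟨V, hV⟩ := Diag_exists_basis ht hd hne
  refine ⟨V, ?_⟩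
  rw [mul_assoc, hV, ← mul_assoc, ← Units.val_mul, inv_mul_cancel, Units.val_one, one_mul]

/-- **L3.**  The commutant of `diag(α,α')`, `α ≠ α'`. -/
theorem diag_of_commute {α α' : k} (hne : α ≠ α') {N : M2 k}
    (h : N * !![α, 0; 0, α'] = !![α, 0; 0, α'] * N) : N = !![N 0 0, 0; 0, N 1 1] := by
  have h01 := congrFun (congrFun h 0) 1
  have h10 := congrFun (congrFun h 1) 0
  simp [Matrix.mul_apply, Fin.sum_univ_two] at h01 h10
  have e01 : N 0 1 = 0 := by
    have h1 : N 0 1 * (α' - α) = 0 := by rw [mul_sub, h01]; ring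
    exact (mul_eq_zero.1 h1).resolve_right (sub_ne_zero.2 hne.symm)
  have e10 : N 1 0 = 0 := by
    have h1 : N 1 0 * (α - α') = 0 := by rw [mul_sub, h10]; ring
    exact (mul_eq_zero.1 h1).resolve_right (sub_ne_zero.2 hne)
  ext i j
  fin_cases i <;> fin_cases j <;> simp [e01, e10]

/-- **L4.**  `R diag(α,α') = diag(β,β') R`, `R` invertible, `α ≠ α'`: `R` is diagonal or antidiagonal. -/
theorem diag_or_anti {α α' β β' : k} (hne : α ≠ α') {R : M2 k} (hdet : R.det ≠ 0)
    (h : R * !![α, 0; 0, α'] = !![β, 0; 0, β'] * R) :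
    R = !![R 0 0, 0; 0, R 1 1] ∨ R = !![0, R 0 1; R 1 0, 0] := by
  have h00 := congrFun (congrFun h 0) 0
  have h01 := congrFun (congrFun h 0) 1
  have h10 := congrFun (congrFun h 1) 0
  have h11 := congrFun (congrFun h 1) 1
  simp [Matrix.mul_apply, Fin.sum_univ_two] at h00 h01 h10 h11
  have key : ∀ {x a b : k}, x * a = b * x → a = b ∨ x = 0 := by
    intro x a b hx
    have h1 : (a - b) * x = 0 := by linear_combination hx
    rcases mul_eq_zero.1 h1 with h | h
    · exact Or.inl (sub_eq_zero.1 h)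
    · exact Or.inr h
  replace h00 := key h00
  replace h01 := key h01
  replace h10 := key h10
  replace h11 := key h11
  rw [Matrix.det_fin_two] at hdet
  by_cases hR : R 0 0 = 0
  · right
    have h01' : R 0 1 ≠ 0 := by
      intro h0
      apply hdet
      rw [hR, h0]; ring
    have h10' : R 1 0 ≠ 0 := by
      intro h0
      apply hdet
      rw [hR, h0]; ring
    have hb : α = β' := by
      rcases h10 with h | h
      · exact h
      · exact absurd h h10'
    have e11 : R 1 1 = 0 := by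
      rcases h11 with h | h
      · exact absurd (hb.trans h.symm) hne
      · exact h
    ext i j
    fin_cases i <;> fin_cases j <;> simp [hR, e11]
  · left
    have hb : α = β := by
      rcases h00 with h | h
      · exact h
      · exact absurd h hR
    have e01 : R 0 1 = 0 := by
      rcases h01 with h | h
      · exact absurd (hb.trans h.symm) hne
      · exact h
    have h11' : R 1 1 ≠ 0 := by
      intro h0
      apply hdet
      rw [e01, h0]; ring
    have hb' : α' = β' := by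
      rcases h11 with h | h
      · exact h
      · exact absurd h h11'
    have e10 : R 1 0 = 0 := by
      rcases h10 with h | h
      · exact absurd (h.trans hb'.symm) hne
      · exact h
    ext i j
    fin_cases i <;> fin_cases j <;> simp [e01, e10]

/-- **L5.**  `R = antidiag(a,b)` invertible, `R diag(x,x') = diag(y,y') R`: `x' = y`, `x = y'`. -/
theorem swap_of_anti {a b x x' y y' : k} (hdet : (!![0, a; b, 0] : M2 k).det ≠ 0)
    (h : (!![0, a; b, 0] : M2 k) * !![x, 0; 0, x'] = !![y, 0; 0, y'] * !![0, a; b, 0]) : x' = y ∧ x = y' := by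
  have hab : a ≠ 0 ∧ b ≠ 0 := by
    rw [Matrix.det_fin_two_of] at hdet
    constructor
    · rintro rfl; simp at hdet
    · rintro rfl; simp at hdet
  have h01 := congrFun (congrFun h 0) 1
  have h10 := congrFun (congrFun h 1) 0
  simp [Matrix.mul_apply, Fin.sum_univ_two] at h01 h10
  constructor
  · exact mul_left_cancel₀ hab.1 (h01.trans (mul_comm y a))
  · exact mul_left_cancel₀ hab.2 (h10.trans (mul_comm y' b))

variable {P : Plc} {r : G →* GL (Fin 2) k}

theorem rm_conjRep (B : GL (Fin 2) k) (σ : G) :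
    rm (SS.conjRep B r) σ = ((B⁻¹ : GL (Fin 2) k) : M2 k) * rm r σ * (B : M2 k) := by
  unfold rm
  rw [SS.conjRep_apply]
  rfl

theorem rm_mul (σ τ : G) : rm r (σ * τ) = rm r σ * rm r τ := by
  unfold rm
  rw [map_mul]
  rfl

theorem rm_pow (σ : G) (n : ℕ) : ((r σ ^ n : GL (Fin 2) k) : M2 k) = rm r σ ^ n := rfl

theorem det_rm_ne_zero (σ : G) : (rm r σ).det ≠ 0 := by
  have h : IsUnit (rm r σ) := (r σ).isUnit
  exact ((Matrix.isUnit_iff_isUnit_det _).1 h).ne_zero

/-- the relation `r(φ) r(s) = r(s)^p r(φ)`. -/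
theorem TameR.rel (h : TameR P r) {φ : GQ} (hφ : IsFrob P P.ℓ φ) {s : GQ} (hs : s ∈ P.ine) :
    rm r φ * rm r s = rm r s ^ P.ℓ * rm r φ := by
  have h1 := h.frob φ hφ s hs
  have h2 : r φ * r s = r s ^ P.ℓ * r φ := by
    rw [← h1, map_mul, map_mul, map_inv]
    group
  exact congrArg (fun g : GL (Fin 2) k => (g : M2 k)) h2

/-- **(Diag).** -/
theorem exists_diagR [CharP k P.ℓ] (hr : Fermat.Agent.S56.B.RSmooth r) (hs : Split r) (hI : ¬ CaseR P r)
    (ht : TameR P r) {φ : GQ} (hφ : IsFrob P P.ℓ φ) : ∃ B : GL (Fin 2) k, DiagR P φ (SS.conjRep B r) := by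
  haveI : Fact P.ℓ.Prime := ⟨P.prime⟩
  -- a non scalar element
  obtain ⟨s1, hs1, hns⟩ : ∃ s1 ∈ P.ine, ∀ x : k, rm r s1 ≠ x • (1 : M2 k) := by
    by_contra hcon
    push Not at hcon
    exact hI (SS.caseR_of_scalar hr hs hcon)
  obtain ⟨α, α', hchar⟩ := hs s1
  have hne : α ≠ α' := ne_of_not_scalar (p := P.ℓ) (M := r s1) (R := r φ)
    (by rw [← ht.frob φ hφ s1 hs1, map_mul, map_mul, map_inv]) hchar hns
  obtain ⟨B, hB⟩ := exists_diag hchar hne
  have ht' := ht.conj B
  set r' := SS.conjRep B r with hr'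
  have h1 : rm r' s1 = !![α, 0; 0, α'] := by rw [rm_conjRep, hB]
  -- `r'` is diagonal on inertia
  have hdiag : ∀ s ∈ P.ine, rm r' s = !![rm r' s 0 0, 0; 0, rm r' s 1 1] := by
    intro s hs'
    apply diag_of_commute hne
    rw [← h1]
    exact congrArg (fun g : GL (Fin 2) k => (g : M2 k)) (ht'.comm s hs' s1 hs1)
  -- `r' φ` is antidiagonal
  have hrel := ht'.rel hφ hs1
  rw [h1, SS.Flat_diag_pow] at hrel
  have hanti : rm r' φ = !![0, rm r' φ 0 1; rm r' φ 1 0, 0] := by
    rcases diag_or_anti hne (det_rm_ne_zero φ) hrel with hd | ha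
    · exfalso
      apply hI
      apply caseR_of_conj (B := B)
      refine SS.caseR_of_stable (SS.rSmooth_conj hr) hφ (v := ![1, 0]) (by
        intro h0
        have := congrFun h0 0
        simp at this) (fun γ hγ => ⟨rm r' γ 0 0, ?_⟩) ⟨rm r' φ 0 0, ?_⟩
      · rw [hdiag γ hγ]
        ext i
        fin_cases i <;> simp [Matrix.mulVec, dotProduct, Fin.sum_univ_two]
      · rw [hd]
        ext i
        fin_cases i <;> simp [Matrix.mulVec, dotProduct, Fin.sum_univ_two]
    · exact ha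
  have hdetφ : (!![0, rm r' φ 0 1; rm r' φ 1 0, 0] : M2 k).det ≠ 0 := by
    rw [← hanti]
    exact det_rm_ne_zero φ
  have hsw : ∀ s ∈ P.ine, rm r' s 1 1 = rm r' s 0 0 ^ P.ℓ ∧ rm r' s 0 0 = rm r' s 1 1 ^ P.ℓ := by
    intro s hs'
    have h2 := ht'.rel hφ hs'
    rw [hdiag s hs', SS.Flat_diag_pow, hanti] at h2
    simpa using swap_of_anti hdetφ h2
  refine ⟨B, ⟨fun s hs' => ⟨rm r' s 0 0, ?_, ?_⟩, ⟨_, _, hanti⟩, ⟨s1, hs1, ?_⟩⟩⟩
  · obtain ⟨e1, e2⟩ := hsw s hs'
    rw [pow_two, pow_mul, ← e1, ← e2]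
  · rw [← (hsw s hs').1]
    exact hdiag s hs'
  · rw [← (hsw s1 hs1).1, h1]
    simpa using hne.symm

end Fermat.Agent.S56.F.SS0

end
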