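/-
S56 block (F), F-0 CASE I, (Embed): the subfield `F = {x ∈ k | x^(p²) = x}`, its cardinality, and embeddings into an algebraically closed field.  Pure algebra.
-/
import Fermat.Agent.S56.F.SS0.Defs

set_option autoImplicit false

open Fermat.Agent.PT.Local

noncomputable section

namespace Fermat.Agent.S56.F.SS0

section alg

variable (p : ℕ) [Fact p.Prime] (k : Type) [Field k] [CharP k p]

/-- `F = {x ∈ k | x^(p²) = x}`. -/
def Fsub : Subfield k := (iterateFrobenius k p 2).eqLocusField (RingHom.id k)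

variable {p k}

theorem mem_Fsub {x : k} : x ∈ Fsub p k ↔ x ^ (p ^ 2) = x := by
  unfold Fsub
  rw [RingHom.mem_eqLocusField, iterateFrobenius_def, RingHom.id_apply]

instance charP_Fsub : CharP (Fsub p k) p :=
  (Fsub p k).subtype.charP (Fsub p k).subtype.injective p

/-- PROOF.  `F = Fsub p k` is a finite field of characteristic `p`: `#F = p^n` (`FiniteField.card`).  `n ≤ 2`: the elements of `F` are roots of `X^(p²) - X`
(`FiniteField.X_pow_card_pow_sub_X_natDegree_eq`/`Polynomial.card_roots'`), or: a generator of the cyclic group `Fˣ` has order `p^n - 1` dividing `p² - 1`.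
`n ≠ 1` (and `n ≠ 0`): otherwise `x^p = x` for all `x ∈ F` (`FiniteField.pow_card`). -/
theorem card_Fsub [Finite k] (h : ∃ x : k, x ^ (p ^ 2) = x ∧ x ^ p ≠ x) : Nat.card (Fsub p k) = p ^ 2 := by
  classical
  have hp : p.Prime := Fact.out
  let _ := Fintype.ofFinite (Fsub p k)
  obtain ⟨n, -, hn⟩ := FiniteField.card (Fsub p k) p
  rw [Nat.card_eq_fintype_card, hn]
  have hle : Fintype.card (Fsub p k) ≤ p ^ 2 := by
    have h1 : (Finset.univ : Finset (Fsub p k)).val ⊆
        (Polynomial.X ^ p ^ 2 - Polynomial.X : Polynomial (Fsub p k)).roots := by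
      intro x _
      rw [Polynomial.mem_roots (FiniteField.X_pow_card_pow_sub_X_ne_zero _ two_ne_zero hp.one_lt)]
      simp only [Polynomial.IsRoot.def, Polynomial.eval_sub, Polynomial.eval_pow, Polynomial.eval_X]
      rw [sub_eq_zero]
      exact Subtype.ext (mem_Fsub.mp x.2)
    have h2 := Polynomial.card_le_degree_of_subset_roots h1
    rwa [FiniteField.X_pow_card_pow_sub_X_natDegree_eq _ two_ne_zero hp.one_lt,
      Finset.card_univ] at h2
  rw [hn] at hle
  have hn2 : (n : ℕ) ≤ 2 := (Nat.pow_le_pow_iff_right hp.one_lt).mp hle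
  have hn1 : (n : ℕ) ≠ 1 := by
    intro h1
    obtain ⟨x, hx, hx'⟩ := h
    apply hx'
    have h3 := FiniteField.pow_card (⟨x, mem_Fsub.mpr hx⟩ : Fsub p k)
    rw [hn, h1, pow_one] at h3
    exact congrArg Subtype.val h3
  have hn0 : 0 < (n : ℕ) := n.pos
  have hn3 : (n : ℕ) = 2 := by omega
  rw [hn3]

/-- **Embedding.**  PROOF.  `ι₀ : F →+* K` any embedding (`ZMod.algebra`, `Algebra.IsAlgebraic.of_finite`, `IsAlgClosed.lift`).
`s = g + g^p` and `t = g * g^p` satisfy `x^p = x`, so `s = A`, `t = B` with `A B : ℕ` (`Ord.exists_natCast_of_pow_eq`).  `Q = X² - A X + B ∈ ℤ[X]` kills `g`, hence `β`, hence `ι₀ β`: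
`(ι₀ β - g)(ι₀ β - g^p) = 0`.  If `ι₀ β = g` take `ι₀`; if `ι₀ β = g^p` take `ι₀ ∘ frobenius F p`: `ι₀ (β^p) = g^(p²) = g`. -/
theorem exists_embedding {F K : Type} [Field F] [Finite F] [CharP F p] [Field K] [IsAlgClosed K] [CharP K p]
    {β : F} {g : K} (hg : g ^ (p ^ 2) = g)
    (h : ∀ Q : Polynomial ℤ, Polynomial.aeval g Q = 0 → Polynomial.aeval β Q = 0) : ∃ ι : F →+* K, ι β = g := by
  classical
  let _ : Algebra (ZMod p) F := ZMod.algebra F p
  let _ : Algebra (ZMod p) K := ZMod.algebra K p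
  have : Algebra.IsAlgebraic (ZMod p) F := Algebra.IsAlgebraic.of_finite (ZMod p) F
  let ι₀ : F →+* K := (IsAlgClosed.lift : F →ₐ[ZMod p] K).toRingHom
  obtain ⟨A, hA⟩ := Ord.exists_natCast_of_pow_eq (p := p) (x := g + g ^ p)
    (by rw [add_pow_char, ← pow_mul, ← pow_two, hg, add_comm])
  obtain ⟨B, hB⟩ := Ord.exists_natCast_of_pow_eq (p := p) (x := g * g ^ p)
    (by rw [mul_pow, ← pow_mul, ← pow_two, hg, mul_comm])
  have hev : ∀ {R : Type} [CommRing R] (y : R),
      Polynomial.aeval y (Polynomial.X ^ 2 - Polynomial.C (A : ℤ) * Polynomial.X +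
        Polynomial.C (B : ℤ) : Polynomial ℤ) = y ^ 2 - (A : R) * y + (B : R) := by
    intro R _ y
    simp
  have hQg : Polynomial.aeval g (Polynomial.X ^ 2 - Polynomial.C (A : ℤ) * Polynomial.X +
        Polynomial.C (B : ℤ) : Polynomial ℤ) = 0 := by
    rw [hev, ← hA, ← hB]
    ring
  have hQβ := h _ hQg
  rw [hev] at hQβ
  have hQι : (ι₀ β - g) * (ι₀ β - g ^ p) = 0 := by
    have h1 := congrArg ι₀ hQβ
    rw [map_add, map_sub, map_mul, map_pow, map_natCast, map_natCast, map_zero, ← hA, ← hB] at h1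
    linear_combination h1
  rcases mul_eq_zero.1 hQι with h1 | h1
  · exact ⟨ι₀, sub_eq_zero.1 h1⟩
  · refine ⟨ι₀.comp (frobenius F p), ?_⟩
    rw [RingHom.comp_apply, frobenius_def, map_pow, sub_eq_zero.1 h1, ← pow_mul, ← pow_two, hg]

/-- `aeval` and the inclusion of a subfield. -/
theorem coe_aeval_Fsub (β : Fsub p k) (Q : Polynomial ℤ) :
    ((Polynomial.aeval β Q : Fsub p k) : k) = Polynomial.aeval (β : k) Q := by
  have h := Polynomial.aeval_algHom_apply ((Fsub p k).subtype.toIntAlgHom) β Q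
  exact h.symm

end alg

/-- reduction of integral polynomial expressions (`res` is a ring homomorphism on the valuation ring: `Polynomial.induction_on` with `res_add`, `res_mul`, `res_pow`,
integers are integral; or `x = ((⟨x,_⟩ : P.A) : Qb)` and `Polynomial.aeval_algHom_apply`/`map_aeval` for `P.A.subtype` and `IsLocalRing.residue P.A`). -/
theorem res_aeval (P : Plc) {x : Qb} (hx : P.v x ≤ 1) (Q : Polynomial ℤ) :
    P.v (Polynomial.aeval x Q) ≤ 1 ∧ res P (Polynomial.aeval x Q) = Polynomial.aeval (res P x) Q := by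
  have hxA : x ∈ P.A := (P.A.valuation_le_one_iff x).1 hx
  have h1 : Polynomial.aeval x Q = ((Polynomial.aeval (⟨x, hxA⟩ : P.A) Q : P.A) : Qb) := by
    have h := Polynomial.aeval_algHom_apply (P.A.subtype.toIntAlgHom) (⟨x, hxA⟩ : P.A) Q
    exact h
  have h2 : P.v (Polynomial.aeval x Q) ≤ 1 := by
    rw [h1]
    exact (P.A.valuation_le_one_iff _).2 (Subtype.property _)
  refine ⟨h2, ?_⟩
  rw [res_of_le P h2, res_of_le P hx]
  have h3 := Polynomial.aeval_algHom_apply ((IsLocalRing.residue P.A).toIntAlgHom) (⟨x, hxA⟩ : P.A) Q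
  refine Eq.trans ?_ h3.symm
  show IsLocalRing.residue P.A _ = IsLocalRing.residue P.A _
  congr 1
  exact Subtype.ext h1

theorem inM_aeval_iff (P : Plc) {x : Qb} (hx : P.v x ≤ 1) (Q : Polynomial ℤ) :
    InM P (Polynomial.aeval x Q) ↔ Polynomial.aeval (res P x) Q = 0 := by
  obtain ⟨h1, h2⟩ := res_aeval P hx Q
  rw [← h2, res_eq_zero_iff P h1]
  rfl

end Fermat.Agent.S56.F.SS0

end
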