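/-
S56 block (F), F-0 CASE I, (Line): for `r` in diagonal form (`DiagR`) with a flat lift `E_c`: the subgroup `X1 = ε F e₁` of `E_c` has order `p²`, inertia acts on it by the
character `η γ = r(γ)₀₀`, `η^(p+1) = det r = ω`; A10 (`SS.vol_of_char`) gives the exact level `λ`, and (T1) at this level: `Q(θ(λ,γ)) = 0 ⟹ Q(η γ) = 0`.
-/
import Fermat.Agent.S56.F.SS0.Field

set_option autoImplicit false

open Fermat.Agent.PT.Local Matrix
open Fermat.Agent.S53 (G M2)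
open Fermat.Agent.S56.C (ad rm)

noncomputable section

namespace Fermat.Agent.S56.F.SS0

section char

variable {P : Plc} {X X' : Type} [AddCommGroup X] [AddCommGroup X'] [Finite X] [Finite X']
  (𝒟 : DualPair P P.ine X X') {K : Type} [Field K] (u : X →+ K)

/-- polynomials in the action (`Polynomial.induction_on`; `AddMonoid.End X` is a ring, `aeval` over `ℤ`; `(n : AddMonoid.End X) x = n • x`). -/
theorem u_aeval (γ : P.ine) {t : K} (hact : ∀ x, u (𝒟.act γ x) = t * u x) (Q : Polynomial ℤ) (x : X) :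
    u (Polynomial.aeval (𝒟.actE γ) Q x) = Polynomial.aeval t Q * u x := by
  have hmul : ∀ (f g : AddMonoid.End X) (y : X), (f * g) y = f (g y) := fun _ _ _ => rfl
  have hadd : ∀ (f g : AddMonoid.End X) (y : X), (f + g) y = f y + g y := fun _ _ _ => rfl
  have hpow : ∀ (n : ℕ) (y : X), u ((𝒟.actE γ ^ n) y) = t ^ n * u y := by
    intro n
    induction n with
    | zero => intro y; simp
    | succ n ih =>
      intro y
      rw [pow_succ, hmul, ih, DualPair.actE_apply, hact, pow_succ, mul_assoc]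
  induction Q using Polynomial.induction_on generalizing x with
  | C a =>
    rw [Polynomial.aeval_C, Polynomial.aeval_C, eq_intCast, eq_intCast, AddMonoid.End.intCast_apply,
      map_zsmul, zsmul_eq_mul]
  | add p q hp hq =>
    rw [map_add, map_add, hadd, map_add, hp, hq, add_mul]
  | monomial n a _ =>
    rw [map_mul, map_mul, Polynomial.aeval_C, Polynomial.aeval_C, map_pow, map_pow,
      Polynomial.aeval_X, Polynomial.aeval_X, eq_intCast, eq_intCast, hmul,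
      AddMonoid.End.intCast_apply, map_zsmul, hpow, zsmul_eq_mul, mul_assoc]

variable [Finite K] [CharP K P.ℓ] (η : P.ine → K)

/-- **(T1) for characters.** -/
theorem aeval_eq_zero_of_char (hcard : Nat.card X = P.ℓ ^ 2) (hu : Function.Injective u)
    (hact : ∀ γ x, u (𝒟.act γ x) = η γ * u x) {ζ : Qb} (hζ : IsPrimitiveRoot ζ P.ℓ)
    (hω : ∀ (γ : P.ine) (n : ℕ), (γ : GQ) ζ = ζ ^ n → (n : K) = η γ ^ (P.ℓ + 1))
    (hne : ∃ γ, η γ ≠ 1) {lam : Qb} (hlam : lam ^ (P.ℓ ^ 2 - 1) = -(P.ℓ : Qb)) (γ : P.ine)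
    (Q : Polynomial ℤ) (hQ : InM P (Polynomial.aeval ((γ : GQ) lam / lam) Q)) :
    Polynomial.aeval (η γ) Q = 0 := by
  have hm := SS.vol_of_char 𝒟 u η hcard hu hact hζ hω hne hlam
  have hnt : Nontrivial X := by
    have h1 : 1 < Nat.card X := by rw [hcard]; exact Nat.one_lt_pow (by norm_num) P.prime.one_lt
    exact Finite.one_lt_card_iff_nontrivial.1 h1
  obtain ⟨x, hx⟩ := exists_ne (0 : X)
  have hcop : ¬ P.ℓ ∣ P.ℓ ^ 2 - 1 := by
    intro hd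
    have h1 : P.ℓ ∣ P.ℓ ^ 2 := dvd_pow_self _ (by norm_num)
    have h2 : 1 < P.ℓ ^ 2 := Nat.one_lt_pow (by norm_num) P.prime.one_lt
    have h3 : P.ℓ ∣ P.ℓ ^ 2 - (P.ℓ ^ 2 - 1) := Nat.dvd_sub h1 hd
    have h4 : P.ℓ ^ 2 - (P.ℓ ^ 2 - 1) = 1 := by omega
    rw [h4] at h3
    exact P.prime.one_lt.ne' (Nat.dvd_one.1 h3)
  have hL : LF.IsLam P (P.ℓ ^ 2 - 1) lam := ⟨hcop, hlam⟩
  have hl0 : lam ≠ 0 := LF.IsLam.ne_zero P hL
  have hl1 : InM P lam := LF.IsLam.v_lt_one P hL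
  have hxS : 𝒟.Sge x lam := (hm x hx lam).2 (Dv.refl P lam)
  obtain ⟨c, hc, hS⟩ := 𝒟.tame (ine_le_dec P) γ γ.2 hl0 hl1 hxS Q hQ
  have h0 : Polynomial.aeval (𝒟.actE γ) Q x = 0 := by
    by_contra hne'
    have h1 : Dv P (lam * c) lam := (hm _ hne' _).1 hS
    unfold Dv at h1
    rw [map_mul] at h1
    have h2 : P.v lam * P.v c < P.v lam * 1 :=
      mul_lt_mul_of_pos_left hc (zero_lt_iff.2 (LF.IsLam.v_ne_zero P hL))
    rw [mul_one] at h2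
    exact absurd h1 (not_le.2 h2)
  have h1 := u_aeval 𝒟 u γ (hact γ) Q x
  rw [h0, map_zero] at h1
  have hux : u x ≠ 0 := fun h => hx (hu (by rw [h, map_zero]))
  exact (mul_eq_zero.1 h1.symm).resolve_right hux

end char

variable (P : Plc) (k : Type) [Field k] [CharP k P.ℓ]

/-- `X1 = {(0, (x, 0)) | x^(p²) = x} ⊆ E_c`. -/
def X1 : AddSubgroup (E2 k) where
  carrier := {x | x.1 = 0 ∧ x.2 1 = 0 ∧ x.2 0 ∈ Fsub P.ℓ k}
  zero_mem' := ⟨rfl, rfl, (Fsub P.ℓ k).zero_mem⟩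
  add_mem' := by
    rintro x y ⟨hx1, hx2, hx3⟩ ⟨hy1, hy2, hy3⟩
    refine ⟨by rw [Prod.fst_add, hx1, hy1, add_zero], ?_, ?_⟩
    · rw [Prod.snd_add, Pi.add_apply, hx2, hy2, add_zero]
    · rw [Prod.snd_add, Pi.add_apply]
      exact (Fsub P.ℓ k).add_mem hx3 hy3
  neg_mem' := by
    rintro x ⟨hx1, hx2, hx3⟩
    refine ⟨by rw [Prod.fst_neg, hx1, neg_zero], ?_, ?_⟩
    · rw [Prod.snd_neg, Pi.neg_apply, hx2, neg_zero]
    · rw [Prod.snd_neg, Pi.neg_apply]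
      exact (Fsub P.ℓ k).neg_mem hx3

/-- the coordinate. -/
def u1 : X1 P k →+ k where
  toFun x := x.1.2 0
  map_zero' := rfl
  map_add' _ _ := rfl

variable {P k}

theorem u1_injective : Function.Injective (u1 P k) := by
  rintro ⟨x, hx1, hx2, hx3⟩ ⟨y, hy1, hy2, hy3⟩ h
  apply Subtype.ext
  refine Prod.ext (hx1.trans hy1.symm) ?_
  funext i
  fin_cases i
  · exact h
  · exact hx2.trans hy2.symm

/-- (`x ↦ ⟨x.2 0, _⟩` is a bijection `X1 ≃ Fsub`; `card_Fsub`.) -/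
theorem card_X1 [Finite k] (h : ∃ x : k, x ^ (P.ℓ ^ 2) = x ∧ x ^ P.ℓ ≠ x) : Nat.card (X1 P k) = P.ℓ ^ 2 := by
  rw [← card_Fsub h]
  refine Nat.card_eq_of_bijective (fun x : X1 P k => (⟨x.1.2 0, x.2.2.2⟩ : Fsub P.ℓ k)) ⟨?_, ?_⟩
  · intro x y hxy
    exact u1_injective (congrArg Subtype.val hxy)
  · intro y
    exact ⟨⟨(0, ![(y : k), 0]), rfl, rfl, y.2⟩, rfl⟩

variable {r : G →* GL (Fin 2) k} {c : G → M2 k} {φ : GQ}

/-- the action of inertia on `X1`  (`DiagR.ine`, `SS.actE_eps`: `actE r c γ (0, (x,0)) = (0, (η x, 0))`, `η ∈ Fsub`). -/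
theorem actE_X1 (hD : DiagR P φ r) {γ : GQ} (hγ : γ ∈ P.ine) {x : E2 k} (hx : x ∈ X1 P k) :
    actE r c γ x ∈ X1 P k ∧ (actE r c γ x).2 0 = rm r γ 0 0 * x.2 0 := by
  obtain ⟨hx1, hx2, hx3⟩ := hx
  obtain ⟨t, ht, hm⟩ := hD.ine γ hγ
  have h00 : rm r γ 0 0 = t := by rw [hm]; rfl
  have e1 : (actE r c γ x).1 = 0 := by
    rw [actE_fst, hx1, Matrix.mulVec_zero]
  have e2 : (actE r c γ x).2 = rm r γ *ᵥ x.2 := by
    rw [actE_snd, hx1, Matrix.mulVec_zero, add_zero]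
  have e3 : (actE r c γ x).2 0 = t * x.2 0 := by
    rw [e2, hm]
    simp [Matrix.mulVec, dotProduct, Fin.sum_univ_two]
  have e4 : (actE r c γ x).2 1 = 0 := by
    rw [e2, hm]
    simp [Matrix.mulVec, dotProduct, Fin.sum_univ_two, hx2]
  refine ⟨⟨e1, e4, ?_⟩, by rw [e3, h00]⟩
  rw [e3]
  exact (Fsub P.ℓ k).mul_mem (mem_Fsub.2 ht) hx3

/-- `ω = det r = η^(p+1)` on inertia  (`DetOmega`, `Ord.isOm_iff`, `DiagR.ine`, `Matrix.det_fin_two_of`). -/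
theorem natCast_eq_eta_pow (hD : DiagR P φ r) (hdet : DetOmega P.ℓ r) {ζ : Qb} (hζ : IsPrimitiveRoot ζ P.ℓ)
    {γ : GQ} (hγ : γ ∈ P.ine) {n : ℕ} (hn : γ ζ = ζ ^ n) : (n : k) = rm r γ 0 0 ^ (P.ℓ + 1) := by
  obtain ⟨t, -, hm⟩ := hD.ine γ hγ
  have h00 : rm r γ 0 0 = t := by rw [hm]; rfl
  have h1 : (rm r γ).det = (n : k) := hdet γ n ((Ord.isOm_iff hζ γ n).2 hn)
  rw [← h1, h00, hm, Matrix.det_fin_two_of, mul_zero, sub_zero, pow_succ']

/-- **(Line).** -/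
theorem aeval_eta [Finite k] (hD : DiagR P φ r) (hdet : DetOmega P.ℓ r) (hfl : SS.FlatE P.ℓ r c) {lam : Qb}
    (hlam : lam ^ (P.ℓ ^ 2 - 1) = -(P.ℓ : Qb)) :
    ∀ γ ∈ P.ine, ∀ Q : Polynomial ℤ, InM P (Polynomial.aeval (γ lam / lam) Q) →
      Polynomial.aeval (rm r γ 0 0) Q = 0 := by
  intro γ hγ Q hQ
  obtain ⟨X', _, _, 𝒟, hact⟩ := exists_dualPair_of_flatMod P P.ine (actE r c) hfl
  have hst : 𝒟.Stable (X1 P k) := by
    intro σ x hx
    rw [hact]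
    exact (actE_X1 hD σ.2 hx).1
  obtain ⟨ζ, hζ⟩ := Unram_exists_prim P.prime.pos
  obtain ⟨s, hs, hns⟩ := hD.ns
  have hx0 : ∃ x : k, x ^ (P.ℓ ^ 2) = x ∧ x ^ P.ℓ ≠ x := by
    obtain ⟨x, hx, hm⟩ := hD.ine s hs
    have h00 : rm r s 0 0 = x := by rw [hm]; rfl
    exact ⟨x, hx, by rw [← h00]; exact hns⟩
  exact aeval_eq_zero_of_char (𝒟.sub (X1 P k) hst) (u1 P k) (fun σ : P.ine => rm r σ 0 0) (card_X1 hx0)
    u1_injective
    (fun σ x => by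
      show (((𝒟.sub (X1 P k) hst).act σ x : X1 P k) : E2 k).2 0 = _
      rw [DualPair.sub_act, hact]
      exact (actE_X1 hD σ.2 x.2).2)
    hζ (fun σ n hn => natCast_eq_eta_pow hD hdet hζ σ.2 hn)
    ⟨⟨s, hs⟩, fun h1 => hns (by
      have h2 : rm r s 0 0 = 1 := h1
      rw [h2, one_pow])⟩
    hlam ⟨γ, hγ⟩ Q hQ

end Fermat.Agent.S56.F.SS0

end
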