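/-
S56 block (F), F-0 CASE I: **THE CLASSIFICATION** `SS.Classif P r`, and the contract of F-D.
-/
import Fermat.Agent.S56.F.SS0.Diag
import Fermat.Agent.S56.F.SS0.Line
import Fermat.Agent.S56.F.SS.Main

set_option autoImplicit false

open Fermat.Agent.PT.Local Matrix
open Fermat.Agent.S53 (G M2)
open Fermat.Agent.S56.C (ad rm)

noncomputable section

namespace Fermat.Agent.S56.F.SS0

variable {P : Plc} {k : Type} [Field k] {r : G →* GL (Fin 2) k} {c : G → M2 k}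

/-- `SSData` from the diagonal form and (T1) at the level `λ`. -/
theorem nonempty_ssData [Finite k] [CharP k P.ℓ] (C : LamCtx P) (hr : Fermat.Agent.S56.B.RSmooth r)
    (hD : DiagR P C.phi r)
    (hT : ∀ γ ∈ P.ine, ∀ Q : Polynomial ℤ, InM P (Polynomial.aeval (γ C.lam / C.lam) Q) →
      Polynomial.aeval (rm r γ 0 0) Q = 0) :
    Nonempty (SS.SSData C (Fsub P.ℓ k) k r) := by
  -- the eigenvalue of `d0`
  obtain ⟨x, hx, hm⟩ := hD.ine C.d0 C.hd0
  have h00 : rm r C.d0 0 0 = x := by rw [hm]; rfl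
  let β : Fsub P.ℓ k := ⟨x, mem_Fsub.2 hx⟩
  have hg : C.g0 ^ (P.ℓ ^ 2) = C.g0 := by
    have h1 : C.g0 ^ C.e = 1 := C.g0_prim.pow_eq_one
    have h2 : P.ℓ ^ 2 = C.e + 1 := by
      have := C.e_pos
      unfold LamCtx.e at *
      omega
    rw [h2, pow_succ, h1, one_mul]
  have hfin : Finite (Fsub P.ℓ k) := Finite.of_injective _ Subtype.val_injective
  obtain ⟨ι, hι⟩ := exists_embedding (p := P.ℓ) (F := Fsub P.ℓ k) (K := FF P) (β := β) hg (by
    intro Q hQ
    have h1 : InM P (Polynomial.aeval (C.d0 C.lam / C.lam) Q) :=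
      (inM_aeval_iff P (C.v_xi C.d0).le Q).2 hQ
    have h2 := hT C.d0 C.hd0 Q h1
    rw [h00] at h2
    apply Subtype.val_injective
    rw [coe_aeval_Fsub]
    exact h2)
  obtain ⟨s, hs, hns⟩ := hD.ns
  have hx0 : ∃ y : k, y ^ (P.ℓ ^ 2) = y ∧ y ^ P.ℓ ≠ y := by
    obtain ⟨y, hy, hmy⟩ := hD.ine s hs
    have hy00 : rm r s 0 0 = y := by rw [hmy]; rfl
    exact ⟨y, hy, by rw [← hy00]; exact hns⟩
  refine ⟨{ ι := ι, t0 := β, cardF := card_Fsub hx0, hι := hι, r_d0 := hm, r_Gam0 := ?_, r_phi := hD.phi,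
            smooth := hr }⟩
  intro γ hγ
  have h1 : InM P (Polynomial.aeval (γ C.lam / C.lam) (Polynomial.X - 1 : Polynomial ℤ)) := by
    rw [hγ.2, div_self C.lam_ne_zero]
    simp [InM]
  have h2 := hT γ hγ.1 _ h1
  have h3 : rm r γ 0 0 = 1 := by simpa [sub_eq_zero] using h2
  obtain ⟨y, -, hmy⟩ := hD.ine γ hγ.1
  have hy : y = 1 := by rw [← h3, hmy]; rfl
  apply Units.ext
  show rm r γ = 1
  rw [hmy, hy, one_pow]
  ext i j
  fin_cases i <;> fin_cases j <;> simp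

/-- **F-0, CASE I: the classification.** -/
theorem classif [Finite k] [CharP k P.ℓ] (hp2 : P.ℓ ≠ 2) (hr : Fermat.Agent.S56.B.RSmooth r)
    (hdet : DetOmega P.ℓ r) (hs : Split r) (hI : ¬ CaseR P r) (hfl : SS.FlatE P.ℓ r c) : SS.Classif P r := by
  obtain ⟨C⟩ := nonempty_lamCtx P hp2
  obtain ⟨a, hlev⟩ := SS.exists_tame_level hfl hr hs hI
  have ht : TameR P r := TLevel.tameR (a := a) hlev
  obtain ⟨B, hD⟩ := exists_diagR hr hs hI ht C.hphi
  have hT := aeval_eta hD (SS.detOmega_conj hdet) (SS.flatE_conj (B := B) hfl) C.hlam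
  exact ⟨C, Fsub P.ℓ k, inferInstance, inferInstance, B, nonempty_ssData C (SS.rSmooth_conj hr) hD hT⟩

/-- **F-D: the contract in the supersingular case.** -/
theorem funContract [Finite k] [CharP k P.ℓ] (hp2 : P.ℓ ≠ 2) (hr : Fermat.Agent.S56.B.RSmooth r)
    (hdet : DetOmega P.ℓ r) (hs : Split r) (hI : ¬ CaseR P r) :
    Fermat.Agent.S56.B.FunContract r P.dec 1 (PrFlat P.ℓ r) :=
  SS.funContract_of_classif fun _ hfl => classif hp2 hr hdet hs hI hfl

end Fermat.Agent.S56.F.SS0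

end
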